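import Mathlib
import Fermat.Agent.LT.T1.Spec
import Fermat.Agent.LT.H11.LC
import Fermat.Agent.LT.H11.SC

/-!
# Row LT, tower T1, interface Prop `LocCompC` (helper11): PROVED

`locCompC_h11 K : Fermat.Agent.LT.T1.LocCompC K` for every number field `K`, from `LC.lean` and
`SC.lean`.  OFF-MAIN.
-/

set_option autoImplicit false

open IsDedekindDomain NumberField

namespace Fermat.Agent.LT.T1.H11

open Fermat.Agent.LT.H556.A0 Fermat.Agent.LT.H11.LC Fermat.Agent.LT.H11.SC

/-- The interface Prop `LocCompC` of tower T1. -/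
theorem locCompC_h11 (K : Type) [Field K] [NumberField K] : Fermat.Agent.LT.T1.LocCompC K :=
  ⟨⟨locallyCompactSpace_adeleRing_h11 K, t2Space_adeleRing_h11 K,
      secondCountableTopology_adeleRing_h11 K⟩,
    locallyCompactSpace_GL2_adeleRing_h11 K, t2Space_GL2_adeleRing_h11 K,
    secondCountableTopology_GL2_adeleRing_h11 K⟩

end Fermat.Agent.LT.T1.H11
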